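import Fermat.Agent.S59.LoSqC.H505.CountAbs
import Fermat.Agent.S59.LoSqC.H296.LabJ
import Fermat.Agent.S59.LoSqC.H193.LabelFinal
import Fermat.Agent.S59.LoSqC.H193.NodeLevel
import Fermat.Agent.S59.LoSqC.H630.ToricWall

/-!
# S59 moonshot, cell (C) LO-SQ — RealSpec, LAB half (cell architect helper885)

At one system of objects of level `M q` (`V = V∞`, `V₀ = V.comap W`, `Σ` = the nodes of the finite
chart): for ANY subgroup `S₁ ≤ J₀(M q)` of classes with a Kummer generator in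
`H193.splitDiv` (the toric classes)

* `card_toric_le`      : `#S₁ ≤ p ^ (#Σ - 1)`        (hypothesis `hS1` of `H505.count_family505`);
* `lab1SurjE_of_card`  : `p ^ (#Σ - 1) ≤ #S₁` ⟹ `H630.Lab1SurjE` (the leaf (L), VERBATIM).

Inputs: helper193 (`card_splitDiv_level_le`, `finite_splitDiv_level_quot`, `lab1SurjAt_level`),
helper296 (`kummerClasses296`, LAB-J).
-/

set_option autoImplicit false
set_option linter.style.haveILetI false
set_option linter.unusedSectionVars false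
set_option linter.unusedVariables false
set_option synthInstance.maxHeartbeats 400000
set_option maxHeartbeats 1600000

noncomputable section

namespace Fermat.Agent.S59.LoSqC.Real

open ModularCurve
open Fermat.Agent.S18.H138 (chart)
open Fermat.Agent

section Lab

variable {P : ValuationSubring A2.Qb} {E : IntermediateField ℚ A2.Qb} {M q : ℕ}
  [NeZero M] [NeZero q] [NeZero (M * q)]

/-- **`hS1` of the count**: the toric classes are at most `p ^ (#Σ - 1)`. -/
theorem card_toric_le [IsDiscreteValuationRing (A2.RE P E)]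
    [HenselianLocalRing (A2.RE P E)] [IsAlgClosed (IsLocalRing.ResidueField (A2.RE P E))]
    {w : A2.RE P E} (hS : S36.Mod3.Std P E M q w)
    {V : ValuationSubring (A2.Mod.FE E (M * q))} (hV : A2.Mod.IsVinf P E (M * q) V)
    {W : A2.Mod.FE E (M * q) ≃ₐ[E] A2.Mod.FE E (M * q)} (hW : A2.Mod.IsFricke E (M * q) W)
    {p : ℕ} (hp : 0 < p) (hqp : ¬ q ∣ p) {ζ : A2.RE P E} (hζ : IsPrimitiveRoot ζ p)
    (Sg : Finset (Ideal (chart (A2.RE P E) ({A2.Mod.xE E M q} : Set (A2.Mod.FE E (M * q))))))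
    (hSg : ∀ 𝔫 ∈ Sg, H193.IsNodePt w
      (chart (A2.RE P E) ({A2.Mod.xE E M q} : Set (A2.Mod.FE E (M * q))))
      V (V.comap (W : A2.Mod.FE E (M * q) →+* A2.Mod.FE E (M * q))) 𝔫)
    (hall : ∀ 𝔫, H193.IsNodePt w
      (chart (A2.RE P E) ({A2.Mod.xE E M q} : Set (A2.Mod.FE E (M * q))))
      V (V.comap (W : A2.Mod.FE E (M * q) →+* A2.Mod.FE E (M * q))) 𝔫 → 𝔫 ∈ Sg)
    (S₁ : AddSubgroup (JZero (M * q)))
    (hSgen : S₁ ≤ H296.kummerClasses296 E (M * q) p
      (H193.splitDiv (R := A2.RE P E) E w (A2.Mod.xE E M q) p V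
        (V.comap (W : A2.Mod.FE E (M * q) →+* A2.Mod.FE E (M * q))))) :
    Nat.card S₁ ≤ p ^ (Sg.card - 1) := by
  haveI := H193.finite_splitDiv_level_quot hS hV hW hp hqp hζ Sg hSg hall
  haveI := H296.finite_kummerClasses296 (E := E) (N := M * q) hp.ne'
    (H193.splitDiv (R := A2.RE P E) E w (A2.Mod.xE E M q) p V
      (V.comap (W : A2.Mod.FE E (M * q) →+* A2.Mod.FE E (M * q))))
  exact (H505.card_le_of_le505 hSgen).trans
    (H296.card_kummerClasses296_le_of_quot_le hp.ne' _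
      (H193.card_splitDiv_level_le hS hV hW hp hqp hζ Sg hSg hall))

/-- **(L) from the count**: if the toric classes are at least `p ^ (#Σ - 1)`, the labels at the
nodes are onto (`H630.Lab1SurjE`, the input of the toric wall). -/
theorem lab1SurjE_of_card [IsDiscreteValuationRing (A2.RE P E)]
    [HenselianLocalRing (A2.RE P E)] [IsAlgClosed (IsLocalRing.ResidueField (A2.RE P E))]
    {w : A2.RE P E} (hS : S36.Mod3.Std P E M q w)
    {V : ValuationSubring (A2.Mod.FE E (M * q))} (hV : A2.Mod.IsVinf P E (M * q) V)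
    {W : A2.Mod.FE E (M * q) ≃ₐ[E] A2.Mod.FE E (M * q)} (hW : A2.Mod.IsFricke E (M * q) W)
    {p : ℕ} (hp : 0 < p) (hqp : ¬ q ∣ p) {ζ : A2.RE P E} (hζ : IsPrimitiveRoot ζ p)
    (Sg : Finset (Ideal (chart (A2.RE P E) ({A2.Mod.xE E M q} : Set (A2.Mod.FE E (M * q))))))
    (hSg : ∀ 𝔫 ∈ Sg, H193.IsNodePt w
      (chart (A2.RE P E) ({A2.Mod.xE E M q} : Set (A2.Mod.FE E (M * q))))
      V (V.comap (W : A2.Mod.FE E (M * q) →+* A2.Mod.FE E (M * q))) 𝔫)
    (hall : ∀ 𝔫, H193.IsNodePt w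
      (chart (A2.RE P E) ({A2.Mod.xE E M q} : Set (A2.Mod.FE E (M * q))))
      V (V.comap (W : A2.Mod.FE E (M * q) →+* A2.Mod.FE E (M * q))) 𝔫 → 𝔫 ∈ Sg)
    (S₁ : AddSubgroup (JZero (M * q)))
    (hSgen : S₁ ≤ H296.kummerClasses296 E (M * q) p
      (H193.splitDiv (R := A2.RE P E) E w (A2.Mod.xE E M q) p V
        (V.comap (W : A2.Mod.FE E (M * q) →+* A2.Mod.FE E (M * q)))))
    (hcard : p ^ (Sg.card - 1) ≤ Nat.card S₁) :
    H630.Lab1SurjE E w (A2.Mod.xE E M q) V
      (V.comap (W : A2.Mod.FE E (M * q) →+* A2.Mod.FE E (M * q))) p ζ := by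
  haveI := H193.finite_splitDiv_level_quot hS hV hW hp hqp hζ Sg hSg hall
  haveI := H296.finite_kummerClasses296 (E := E) (N := M * q) hp.ne'
    (H193.splitDiv (R := A2.RE P E) E w (A2.Mod.xE E M q) p V
      (V.comap (W : A2.Mod.FE E (M * q) →+* A2.Mod.FE E (M * q))))
  have h1 : p ^ (Sg.card - 1) ≤ Nat.card ↥(H296.kummerClasses296 E (M * q) p
      (H193.splitDiv (R := A2.RE P E) E w (A2.Mod.xE E M q) p V
        (V.comap (W : A2.Mod.FE E (M * q) →+* A2.Mod.FE E (M * q))))) :=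
    hcard.trans (H505.card_le_of_le505 hSgen)
  have h2 := H296.le_card_quot_of_le_card296 hp.ne' _ h1
  exact H193.lab1SurjAt_level hS hV hW hp hqp hζ Sg hSg hall h2

end Lab

end Fermat.Agent.S59.LoSqC.Real

end
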